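/-
GATE-E (S59) / E8.5 (ii) PNEW-PATCH, leaf (P5) of helper80's node table (helper22):
**the ring side of the Taylor–Wiles levels over a QUOTIENT Hecke ring** (`T_Q^new`, the image of
the Hecke action on the `p`-new kernel module `ker (cores, coresD)`; or `Tloc`; or any complete
noetherian local `𝒪`-algebra carrying a representation of the right type generated by its Hecke
traces).

Everything on the ring side is GENERIC in the target ring: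

* `exists_psi_labelled` : `ψ_Q : R_Q ↠ T_Q` (universality + generation by Frobenius traces,
  `GB/B4/Datum/PsiTQPush.exists_psi_of_type`) TOGETHER WITH the identification of the images of the
  labelled Taylor–Wiles units: `ψ_Q (g_j) = χ'₀(τ_j)` for EVERY diagonalisation `(B', χ')` of
  `ρ_Q|D_{q_j}` ordered by the labels `(α_j, β_j)` (`GE2/LabelMap`), and `ψ_Q (g_j) - 1 ∈ 𝔪`;
* `ringSide_new_SO` / `ringSide_new_FL` : the frozen-S56-shaped strict-ordinary / flat problems: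
  ONE theorem producing `(π : R_Q ↠ R_∅, g, ψ_Q)` with `ker π = (g_j − 1)`, `g_j^(p^a) = 1`,
  `π (g_j) = 1`, `R_Q ⊗_π ≅ ρ_∅^univ`, `ψ_Q` surjective, `R_Q ⊗_ψ ≅ ρ_Q`, and the labelled
  identification — the fields `(RQ, g, β, ker_β, g_pow)` of `GE6/Inst/LevelE.TWDepthE` and the
  input `x j := ψ_Q (g j)` of `GB/Alg/UnitPoints.unit_field_of_points`;
* `psi_comp_eq_hecke` : the `β`-semilinearity seam in HECKE spelling: if `κ : T_Q → T_∅` matches the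
  Hecke operators `T_ℓ` (for the primes outside both levels and both excluded sets), then
  `ψ_∅ ∘ π = κ ∘ ψ_Q` (`GE2/ClassMap.comp_eq_comp_of_charpoly_frob`).

The target rings are hypotheses: `T_Q^new` with `ρ_Q^new` of type `𝒟^{so}_Q` is the output of
(P2)+(P4) (GB-PNEW craft).  NEW file, imports only.
-/
import Mathlib
import Fermat.Agent.GE2.LabelMap
import Fermat.Agent.GE2.ClassMap
import Fermat.Agent.GB.B4.Datum.PsiTQPush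

set_option autoImplicit false
set_option linter.unusedSectionVars false
set_option linter.style.haveILetI false

noncomputable section

namespace Fermat.Agent.GE8.RaiseP.P5.RingNew

open IsLocalRing Function Polynomial GaloisRep CuspForm
open Fermat.Agent.GE2.DeltaQData Fermat.Agent.GE2.LabelMap Fermat.Agent.GB.E2.TameGenAdic

/-- `ℚ̄`. -/
local notation "Qb" => AlgebraicClosure ℚ
/-- `G_ℚ`. -/
local notation "GQ" => (AlgebraicClosure ℚ ≃ₐ[ℚ] AlgebraicClosure ℚ)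

section Core

variable {𝒪 : Type} [CommRing 𝒪] [IsDomain 𝒪] [IsDiscreteValuationRing 𝒪]
  [IsAdicComplete (maximalIdeal 𝒪) 𝒪]
  {ρbar : ResidualGaloisRep (ResidueField 𝒪)}
  {𝒟 : ∀ ⦃A : Type⦄ [CommRing A] [IsLocalRing A] [Algebra 𝒪 A], GaloisRepAdic A → Prop}
  {N : ℕ} [NeZero N] {SH : Finset ℕ}
  {TQ : Type} [CommRing TQ] [IsLocalRing TQ] [IsNoetherianRing TQ]
  [IsAdicComplete (maximalIdeal TQ) TQ] [Algebra 𝒪 TQ] [IsLocalHom (algebraMap 𝒪 TQ)]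

/-- **`ψ_Q : R_Q ↠ T_Q` with the labelled units identified.**  `T_Q` ANY complete noetherian local
`𝒪`-algebra with a representation `ρ_Q` of type `𝒟`, residually `ρ̄`, generated by the Hecke
operators `tw (T_ℓ)` which are the Frobenius traces of `ρ_Q`. -/
theorem exists_psi_labelled (D : DeformationRingData 𝒪 ρbar 𝒟)
    (hNS : ∀ q : ℕ, q.Prime → q ∣ N → q ∈ SH)
    (hressurj : Surjective (residue TQ ∘ algebraMap 𝒪 TQ))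
    (ρQ : GaloisRepAdic TQ) (h𝒟 : 𝒟 ρQ)
    (hres : ρQ.residual.IsEquiv (ρbar.baseChangeAlong (ResidueField.map (algebraMap 𝒪 TQ))))
    (tw : heckeAlgebra N 2 (↑SH : Set ℕ) →+* TQ)
    (hgen : Algebra.adjoin 𝒪 (Set.range tw) = ⊤)
    (hchar : ∀ (ℓ : ℕ) (hℓ : ℓ.Prime) (hℓN : ¬ ℓ ∣ N) (hℓS : ℓ ∉ (↑SH : Set ℕ))
      (A : ValuationSubring Qb), A.LiesOverPrime ℓ → ∀ σ : GQ, A.IsFrobeniusAt σ ℓ →
        LinearMap.charpoly (ρQ.ρ σ) =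
          X ^ 2 - C (tw (heckeAlgebra.T hℓ hℓN hℓS)) * X + C ((ℓ : TQ)))
    {r : ℕ} (P : Fin r → ValuationSubring Qb) (φ τ : Fin r → GQ)
    (α β : Fin r → ResidueField 𝒪) (hαβ : ∀ j, α j ≠ β j) (g : Fin r → (D.R)ˣ)
    (hg1 : ∀ j, (g j : D.R) - 1 ∈ maximalIdeal D.R)
    (hg : ∀ j, LabelledAt D.ρ (ResidueField.map (algebraMap 𝒪 D.R)) (P j) (φ j) (τ j)
      (α j) (β j) (g j)) :
    ∃ (ψ : D.R →ₐ[𝒪] TQ) (hψ : IsLocalHom (ψ : D.R →+* TQ)), Surjective ψ ∧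
      (D.ρ.baseChangeAlong (ψ : D.R →+* TQ) hψ).IsEquiv ρQ ∧
      (∀ j, ψ (g j : D.R) - 1 ∈ maximalIdeal TQ) ∧
      (∀ j, LabelledAt ρQ (ResidueField.map (algebraMap 𝒪 TQ)) (P j) (φ j) (τ j) (α j) (β j)
        (Units.map ((ψ : D.R →+* TQ) : D.R →* TQ) (g j))) ∧
      (∀ (j : Fin r) (hφ : φ j ∈ (P j).decompositionSubgroup ℚ)
        (hτ : τ j ∈ (P j).decompositionSubgroup ℚ)
        (B' : Module.Basis (Fin 2) TQ ρQ.V)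
        (χ' : Fin 2 → (P j).decompositionSubgroup ℚ →* TQˣ),
        (∀ (i : Fin 2) (σ : (P j).decompositionSubgroup ℚ),
          ρQ.ρ (σ : GQ) (B' i) = (χ' i σ : TQ) • B' i) →
        residue TQ (χ' 0 ⟨φ j, hφ⟩ : TQ) = ResidueField.map (algebraMap 𝒪 TQ) (α j) →
        residue TQ (χ' 1 ⟨φ j, hφ⟩ : TQ) = ResidueField.map (algebraMap 𝒪 TQ) (β j) →
        ((χ' 0 ⟨τ j, hτ⟩ : TQˣ) : TQ) = ψ (g j : D.R)) := by
  obtain ⟨ψ, hψ, hsurj, he⟩ :=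
    Fermat.Agent.GB.B4.Datum.PsiTQPush.exists_psi_of_type D hNS hressurj ρQ h𝒟 hres tw hgen hchar
  refine ⟨ψ, hψ, hsurj, he, fun j => ?_, fun j => ?_, ?_⟩
  · have h := map_sub_one_mem (ψ : D.R →+* TQ) hψ (hg1 j)
    exact h
  · exact labelledAt_map_algHom ψ hψ he (hg j)
  · intro j hφ hτ B' χ' hχ' h0 h1
    exact chars_eq_map_of_labelledAt_algHom ψ hψ he (hαβ j) (hg j) hφ hτ B' χ' hχ' h0 h1

end Core

/-! ### the `β`-semilinearity seam in Hecke spelling -/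

section Seam

variable {𝒪 : Type} [CommRing 𝒪] [IsDomain 𝒪] [IsDiscreteValuationRing 𝒪]
  [IsAdicComplete (maximalIdeal 𝒪) 𝒪]
  {ρbar : ResidualGaloisRep (ResidueField 𝒪)}
  {𝒟₀ 𝒟Q : ∀ ⦃A : Type⦄ [CommRing A] [IsLocalRing A] [Algebra 𝒪 A], GaloisRepAdic A → Prop}
  (D₀ : DeformationRingData 𝒪 ρbar 𝒟₀) (DQ : DeformationRingData 𝒪 ρbar 𝒟Q)
  {N₀ NQ : ℕ} [NeZero N₀] [NeZero NQ] {S₀ SQ : Finset ℕ}
  {T₀ : Type} [CommRing T₀] [IsLocalRing T₀] [IsNoetherianRing T₀]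
  [IsAdicComplete (maximalIdeal T₀) T₀] [Algebra 𝒪 T₀]
  {TQ : Type} [CommRing TQ] [IsLocalRing TQ] [Algebra 𝒪 TQ]

/-- **`ψ_∅ ∘ π = κ ∘ ψ_Q`** when `κ : T_Q → T_∅` matches the Hecke operators `T_ℓ` at the primes
`ℓ` outside both levels and both excluded sets: the two composites classify representations over
`T_∅` with the same Frobenius characteristic polynomials. -/
theorem psi_comp_eq_hecke (h𝒟Q : IsDeformationCondition 𝒪 𝒟Q)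
    (hlocT : IsLocalHom (algebraMap 𝒪 T₀))
    (hresT : Surjective (residue T₀ ∘ algebraMap 𝒪 T₀))
    (π : DQ.R →ₐ[𝒪] D₀.R) (hπ : IsLocalHom (π : DQ.R →+* D₀.R))
    (hπρ : (DQ.ρ.baseChangeAlong (π : DQ.R →+* D₀.R) hπ).IsEquiv D₀.ρ)
    (ψ₀ : D₀.R →ₐ[𝒪] T₀) (hψ₀ : IsLocalHom (ψ₀ : D₀.R →+* T₀))
    (ρ₀ : GaloisRepAdic T₀)
    (he₀ : (D₀.ρ.baseChangeAlong (ψ₀ : D₀.R →+* T₀) hψ₀).IsEquiv ρ₀)
    (tw₀ : heckeAlgebra N₀ 2 (↑S₀ : Set ℕ) →+* T₀)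
    (hchar₀ : ∀ (ℓ : ℕ) (hℓ : ℓ.Prime) (hℓN : ¬ ℓ ∣ N₀) (hℓS : ℓ ∉ (↑S₀ : Set ℕ))
      (A : ValuationSubring Qb), A.LiesOverPrime ℓ → ∀ σ : GQ, A.IsFrobeniusAt σ ℓ →
        LinearMap.charpoly (ρ₀.ρ σ) =
          X ^ 2 - C (tw₀ (heckeAlgebra.T hℓ hℓN hℓS)) * X + C ((ℓ : T₀)))
    (ψQ : DQ.R →ₐ[𝒪] TQ) (hψQ : IsLocalHom (ψQ : DQ.R →+* TQ))
    (ρQ : GaloisRepAdic TQ)
    (heQ : (DQ.ρ.baseChangeAlong (ψQ : DQ.R →+* TQ) hψQ).IsEquiv ρQ)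
    (twQ : heckeAlgebra NQ 2 (↑SQ : Set ℕ) →+* TQ)
    (hcharQ : ∀ (ℓ : ℕ) (hℓ : ℓ.Prime) (hℓN : ¬ ℓ ∣ NQ) (hℓS : ℓ ∉ (↑SQ : Set ℕ))
      (A : ValuationSubring Qb), A.LiesOverPrime ℓ → ∀ σ : GQ, A.IsFrobeniusAt σ ℓ →
        LinearMap.charpoly (ρQ.ρ σ) =
          X ^ 2 - C (twQ (heckeAlgebra.T hℓ hℓN hℓS)) * X + C ((ℓ : TQ)))
    (κ : TQ →ₐ[𝒪] T₀)
    (hκ : ∀ (ℓ : ℕ) (hℓ : ℓ.Prime) (hℓN₀ : ¬ ℓ ∣ N₀) (hℓS₀ : ℓ ∉ (↑S₀ : Set ℕ))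
      (hℓNQ : ¬ ℓ ∣ NQ) (hℓSQ : ℓ ∉ (↑SQ : Set ℕ)),
      κ (twQ (heckeAlgebra.T hℓ hℓNQ hℓSQ)) = tw₀ (heckeAlgebra.T hℓ hℓN₀ hℓS₀)) :
    ψ₀.comp π = κ.comp ψQ := by
  classical
  -- the finite set of bad primes
  let B : Finset ℕ := (N₀ * NQ).divisors ∪ S₀ ∪ SQ
  have hN₀ : N₀ ≠ 0 := NeZero.ne N₀
  have hNQ : NQ ≠ 0 := NeZero.ne NQ
  have hB : ∀ ℓ : ℕ, ℓ ∉ B → ¬ ℓ ∣ N₀ ∧ ¬ ℓ ∣ NQ ∧ ℓ ∉ (↑S₀ : Set ℕ) ∧ ℓ ∉ (↑SQ : Set ℕ) := by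
    intro ℓ hℓB
    simp only [B, Finset.mem_union, not_or, Nat.mem_divisors, not_and_or] at hℓB
    obtain ⟨⟨h1, h2⟩, h3⟩ := hℓB
    have hne : N₀ * NQ ≠ 0 := mul_ne_zero hN₀ hNQ
    have h1' : ¬ ℓ ∣ N₀ * NQ := by
      rcases h1 with h1 | h1
      · exact h1
      · exact absurd hne h1
    refine ⟨fun h => h1' (h.mul_right NQ), fun h => h1' (h.mul_left N₀), ?_, ?_⟩
    · simpa using h2
    · simpa using h3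
  -- the Hecke operators as functions of `ℓ`
  let tQ : ℕ → TQ := fun ℓ =>
    if h : ℓ.Prime ∧ ¬ ℓ ∣ NQ ∧ ℓ ∉ (↑SQ : Set ℕ) then twQ (heckeAlgebra.T h.1 h.2.1 h.2.2) else 0
  let t₀ : ℕ → T₀ := fun ℓ =>
    if h : ℓ.Prime ∧ ¬ ℓ ∣ N₀ ∧ ℓ ∉ (↑S₀ : Set ℕ) then tw₀ (heckeAlgebra.T h.1 h.2.1 h.2.2) else 0
  refine Fermat.Agent.GE2.ClassMap.comp_eq_comp_of_charpoly_frob D₀ DQ h𝒟Q hlocT hresT π hπ hπρ
    ψ₀ ψQ κ B tQ (fun ℓ => (ℓ : TQ)) t₀ (fun ℓ => (ℓ : T₀)) ?_ ?_ ?_ ?_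
  · intro ℓ hℓ hℓB
    obtain ⟨h1, h2, h3, h4⟩ := hB ℓ hℓB
    have hQ : ℓ.Prime ∧ ¬ ℓ ∣ NQ ∧ ℓ ∉ (↑SQ : Set ℕ) := ⟨hℓ, h2, h4⟩
    have h0 : ℓ.Prime ∧ ¬ ℓ ∣ N₀ ∧ ℓ ∉ (↑S₀ : Set ℕ) := ⟨hℓ, h1, h3⟩
    simp only [tQ, t₀, dif_pos hQ, dif_pos h0]
    exact hκ ℓ hℓ h1 h3 h2 h4
  · intro ℓ _ _
    exact map_natCast κ ℓ
  · intro ℓ hℓ hℓB P hP σ hσ
    obtain ⟨h1, h2, h3, h4⟩ := hB ℓ hℓB
    have hQ : ℓ.Prime ∧ ¬ ℓ ∣ NQ ∧ ℓ ∉ (↑SQ : Set ℕ) := ⟨hℓ, h2, h4⟩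
    have hc := hcharQ ℓ hℓ h2 h4 P hP σ hσ
    rw [← Fermat.Agent.GE2.ClassMap.charpoly_eq_of_isEquiv' heQ σ,
      Fermat.Agent.GE2.ClassMap.charpoly_baseChangeAlong'] at hc
    simp only [tQ, dif_pos hQ]
    exact hc
  · intro ℓ hℓ hℓB P hP σ hσ
    obtain ⟨h1, h2, h3, h4⟩ := hB ℓ hℓB
    have h0 : ℓ.Prime ∧ ¬ ℓ ∣ N₀ ∧ ℓ ∉ (↑S₀ : Set ℕ) := ⟨hℓ, h1, h3⟩
    have hc := hchar₀ ℓ hℓ h1 h3 P hP σ hσ
    rw [← Fermat.Agent.GE2.ClassMap.charpoly_eq_of_isEquiv' he₀ σ,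
      Fermat.Agent.GE2.ClassMap.charpoly_baseChangeAlong'] at hc
    simp only [t₀, dif_pos h0]
    exact hc

end Seam

/-! ### the frozen-S56-shaped problems -/

section FLSO

variable {𝒪 : Type} [CommRing 𝒪] [IsDomain 𝒪] [IsDiscreteValuationRing 𝒪]
  [IsAdicComplete (maximalIdeal 𝒪) 𝒪]
  {ρbar : ResidualGaloisRep (ResidueField 𝒪)} {p : ℕ} [Fact p.Prime]
  {N : ℕ} [NeZero N] {SH : Finset ℕ}
  {TQ : Type} [CommRing TQ] [IsLocalRing TQ] [IsNoetherianRing TQ]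
  [IsAdicComplete (maximalIdeal TQ) TQ] [Algebra 𝒪 TQ] [IsLocalHom (algebraMap 𝒪 TQ)]

/-- **(P5), strict-ordinary case**: the whole ring side of a Taylor–Wiles level over a quotient
Hecke ring `T_Q` (e.g. `T_Q^new`) carrying a representation of type `𝒟^{so}_Q`. -/
theorem ringSide_new_SO (hp2 : p ≠ 2) (S Smin : Finset ℕ)
    (hpSmin : p ∈ Smin) (hSmin : Smin ⊆ S)
    (hmin : ∀ q : ℕ, q.Prime → q ≠ p → (q ∈ Smin ↔ ¬ ρbar.IsUnramifiedAt q))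
    {r : ℕ} (n : ℕ) (qv : Fin r → ℕ)
    (hqv : ∀ i, (qv i).Prime ∧ qv i ∉ S ∧ p ^ (n + 1) ∣ qv i - 1)
    (D₀ : DeformationRingData 𝒪 ρbar (fun _A _ _ _ ρ =>
      GaloisRep.strictOrdinaryCondition 𝒪 p (Smin ∪ ∅) ρ ∧
        ∀ q ∈ Smin, q.Prime → q ≠ p → ρ.IsUnipotentOnInertiaAt q))
    (DQ : DeformationRingData 𝒪 ρbar (fun _A _ _ _ ρ =>
      GaloisRep.strictOrdinaryCondition 𝒪 p (Smin ∪ Finset.univ.image qv) ρ ∧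
        ∀ q ∈ Smin, q.Prime → q ≠ p → ρ.IsUnipotentOnInertiaAt q))
    (P : Fin r → ValuationSubring Qb) (hP : ∀ j, (P j).LiesOverPrime (qv j))
    (φ : Fin r → GQ) (hφ : ∀ j, (P j).IsFrobeniusAt (φ j) (qv j))
    (α β : Fin r → ResidueField 𝒪)
    (hαβ : ∀ j, α j ≠ β j ∧
      LinearMap.charpoly (ρbar.ρ (φ j)) = (X - C (α j)) * (X - C (β j)))
    (τ : Fin r → GQ) (hτ : ∀ j, IsTameGenerator (P j) p (τ j))
    -- the quotient Hecke ring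
    (hNS : ∀ q : ℕ, q.Prime → q ∣ N → q ∈ SH)
    (hressurj : Surjective (residue TQ ∘ algebraMap 𝒪 TQ))
    (ρQ : GaloisRepAdic TQ)
    (h𝒟 : GaloisRep.strictOrdinaryCondition 𝒪 p (Smin ∪ Finset.univ.image qv) ρQ ∧
      ∀ q ∈ Smin, q.Prime → q ≠ p → ρQ.IsUnipotentOnInertiaAt q)
    (hres : ρQ.residual.IsEquiv (ρbar.baseChangeAlong (ResidueField.map (algebraMap 𝒪 TQ))))
    (tw : heckeAlgebra N 2 (↑SH : Set ℕ) →+* TQ)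
    (hgen : Algebra.adjoin 𝒪 (Set.range tw) = ⊤)
    (hchar : ∀ (ℓ : ℕ) (hℓ : ℓ.Prime) (hℓN : ¬ ℓ ∣ N) (hℓS : ℓ ∉ (↑SH : Set ℕ))
      (A : ValuationSubring Qb), A.LiesOverPrime ℓ → ∀ σ : GQ, A.IsFrobeniusAt σ ℓ →
        LinearMap.charpoly (ρQ.ρ σ) =
          X ^ 2 - C (tw (heckeAlgebra.T hℓ hℓN hℓS)) * X + C ((ℓ : TQ))) :
    ∃ (π : DQ.R →ₐ[𝒪] D₀.R) (hπ : IsLocalHom (π : DQ.R →+* D₀.R)) (g : Fin r → (DQ.R)ˣ)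
      (ψ : DQ.R →ₐ[𝒪] TQ) (hψ : IsLocalHom (ψ : DQ.R →+* TQ)),
      Surjective π ∧
      RingHom.ker (π : DQ.R →+* D₀.R) =
        Ideal.span (Set.range fun j => (g j : DQ.R) - 1) ∧
      (DQ.ρ.baseChangeAlong (π : DQ.R →+* D₀.R) hπ).IsEquiv D₀.ρ ∧
      (∀ j, (g j : DQ.R) - 1 ∈ maximalIdeal DQ.R) ∧
      (∀ j, ∀ a m : ℕ, qv j = p ^ a * m + 1 → ¬ p ∣ m → g j ^ p ^ a = 1) ∧
      (∀ j, π (g j : DQ.R) = 1) ∧
      Surjective ψ ∧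
      (DQ.ρ.baseChangeAlong (ψ : DQ.R →+* TQ) hψ).IsEquiv ρQ ∧
      (∀ j, ψ (g j : DQ.R) - 1 ∈ maximalIdeal TQ) ∧
      (∀ (j : Fin r) (hφ' : φ j ∈ (P j).decompositionSubgroup ℚ)
        (hτ' : τ j ∈ (P j).decompositionSubgroup ℚ)
        (B' : Module.Basis (Fin 2) TQ ρQ.V)
        (χ' : Fin 2 → (P j).decompositionSubgroup ℚ →* TQˣ),
        (∀ (i : Fin 2) (σ : (P j).decompositionSubgroup ℚ),
          ρQ.ρ (σ : GQ) (B' i) = (χ' i σ : TQ) • B' i) →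
        residue TQ (χ' 0 ⟨φ j, hφ'⟩ : TQ) = ResidueField.map (algebraMap 𝒪 TQ) (α j) →
        residue TQ (χ' 1 ⟨φ j, hφ'⟩ : TQ) = ResidueField.map (algebraMap 𝒪 TQ) (β j) →
        ((χ' 0 ⟨τ j, hτ'⟩ : TQˣ) : TQ) = ψ (g j : DQ.R)) := by
  obtain ⟨π, hπ, g, h1, h2, h3, h4, h5, h6, h7⟩ :=
    exists_augQuot_units_SO_data hp2 S Smin hpSmin hSmin hmin n qv hqv D₀ DQ P hP φ hφ α β hαβ
      τ hτ
  obtain ⟨ψ, hψ, k1, k2, k3, -, k5⟩ :=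
    exists_psi_labelled DQ hNS hressurj ρQ h𝒟 hres tw hgen hchar P φ τ α β
      (fun j => (hαβ j).1) g h4 h7
  exact ⟨π, hπ, g, ψ, hψ, h1, h2, h3, h4, h5, h6, k1, k2, k3, k5⟩

/-- **(P5), flat twin** (the same over any quotient Hecke ring carrying a representation of type
`𝒟^{fl}_Q`, e.g. `Tloc`). -/
theorem ringSide_new_FL [Finite (ResidueField 𝒪)] (S Smin : Finset ℕ)
    (hpSmin : p ∈ Smin) (hSmin : Smin ⊆ S)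
    (hmin : ∀ q : ℕ, q.Prime → q ≠ p → (q ∈ Smin ↔ ¬ ρbar.IsUnramifiedAt q))
    {r : ℕ} (n : ℕ) (qv : Fin r → ℕ)
    (hqv : ∀ i, (qv i).Prime ∧ qv i ∉ S ∧ p ^ (n + 1) ∣ qv i - 1)
    (D₀ : DeformationRingData 𝒪 ρbar (fun _A _ _ _ ρ =>
      GaloisRep.flatCondition 𝒪 p (Smin ∪ ∅) ρ ∧
        ∀ q ∈ Smin, q.Prime → q ≠ p → ρ.IsUnipotentOnInertiaAt q))
    (DQ : DeformationRingData 𝒪 ρbar (fun _A _ _ _ ρ =>
      GaloisRep.flatCondition 𝒪 p (Smin ∪ Finset.univ.image qv) ρ ∧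
        ∀ q ∈ Smin, q.Prime → q ≠ p → ρ.IsUnipotentOnInertiaAt q))
    (P : Fin r → ValuationSubring Qb) (hP : ∀ j, (P j).LiesOverPrime (qv j))
    (φ : Fin r → GQ) (hφ : ∀ j, (P j).IsFrobeniusAt (φ j) (qv j))
    (α β : Fin r → ResidueField 𝒪)
    (hαβ : ∀ j, α j ≠ β j ∧
      LinearMap.charpoly (ρbar.ρ (φ j)) = (X - C (α j)) * (X - C (β j)))
    (τ : Fin r → GQ) (hτ : ∀ j, IsTameGenerator (P j) p (τ j))
    -- the quotient Hecke ring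
    (hNS : ∀ q : ℕ, q.Prime → q ∣ N → q ∈ SH)
    (hressurj : Surjective (residue TQ ∘ algebraMap 𝒪 TQ))
    (ρQ : GaloisRepAdic TQ)
    (h𝒟 : GaloisRep.flatCondition 𝒪 p (Smin ∪ Finset.univ.image qv) ρQ ∧
      ∀ q ∈ Smin, q.Prime → q ≠ p → ρQ.IsUnipotentOnInertiaAt q)
    (hres : ρQ.residual.IsEquiv (ρbar.baseChangeAlong (ResidueField.map (algebraMap 𝒪 TQ))))
    (tw : heckeAlgebra N 2 (↑SH : Set ℕ) →+* TQ)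
    (hgen : Algebra.adjoin 𝒪 (Set.range tw) = ⊤)
    (hchar : ∀ (ℓ : ℕ) (hℓ : ℓ.Prime) (hℓN : ¬ ℓ ∣ N) (hℓS : ℓ ∉ (↑SH : Set ℕ))
      (A : ValuationSubring Qb), A.LiesOverPrime ℓ → ∀ σ : GQ, A.IsFrobeniusAt σ ℓ →
        LinearMap.charpoly (ρQ.ρ σ) =
          X ^ 2 - C (tw (heckeAlgebra.T hℓ hℓN hℓS)) * X + C ((ℓ : TQ))) :
    ∃ (π : DQ.R →ₐ[𝒪] D₀.R) (hπ : IsLocalHom (π : DQ.R →+* D₀.R)) (g : Fin r → (DQ.R)ˣ)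
      (ψ : DQ.R →ₐ[𝒪] TQ) (hψ : IsLocalHom (ψ : DQ.R →+* TQ)),
      Surjective π ∧
      RingHom.ker (π : DQ.R →+* D₀.R) =
        Ideal.span (Set.range fun j => (g j : DQ.R) - 1) ∧
      (DQ.ρ.baseChangeAlong (π : DQ.R →+* D₀.R) hπ).IsEquiv D₀.ρ ∧
      (∀ j, (g j : DQ.R) - 1 ∈ maximalIdeal DQ.R) ∧
      (∀ j, ∀ a m : ℕ, qv j = p ^ a * m + 1 → ¬ p ∣ m → g j ^ p ^ a = 1) ∧
      (∀ j, π (g j : DQ.R) = 1) ∧
      Surjective ψ ∧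
      (DQ.ρ.baseChangeAlong (ψ : DQ.R →+* TQ) hψ).IsEquiv ρQ ∧
      (∀ j, ψ (g j : DQ.R) - 1 ∈ maximalIdeal TQ) ∧
      (∀ (j : Fin r) (hφ' : φ j ∈ (P j).decompositionSubgroup ℚ)
        (hτ' : τ j ∈ (P j).decompositionSubgroup ℚ)
        (B' : Module.Basis (Fin 2) TQ ρQ.V)
        (χ' : Fin 2 → (P j).decompositionSubgroup ℚ →* TQˣ),
        (∀ (i : Fin 2) (σ : (P j).decompositionSubgroup ℚ),
          ρQ.ρ (σ : GQ) (B' i) = (χ' i σ : TQ) • B' i) →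
        residue TQ (χ' 0 ⟨φ j, hφ'⟩ : TQ) = ResidueField.map (algebraMap 𝒪 TQ) (α j) →
        residue TQ (χ' 1 ⟨φ j, hφ'⟩ : TQ) = ResidueField.map (algebraMap 𝒪 TQ) (β j) →
        ((χ' 0 ⟨τ j, hτ'⟩ : TQˣ) : TQ) = ψ (g j : DQ.R)) := by
  obtain ⟨π, hπ, g, h1, h2, h3, h4, h5, h6, h7⟩ :=
    exists_augQuot_units_FL_data S Smin hpSmin hSmin hmin n qv hqv D₀ DQ P hP φ hφ α β hαβ τ hτ
  obtain ⟨ψ, hψ, k1, k2, k3, -, k5⟩ :=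
    exists_psi_labelled DQ hNS hressurj ρQ h𝒟 hres tw hgen hchar P φ τ α β
      (fun j => (hαβ j).1) g h4 h7
  exact ⟨π, hπ, g, ψ, hψ, h1, h2, h3, h4, h5, h6, k1, k2, k3, k5⟩

end FLSO

end Fermat.Agent.GE8.RaiseP.P5.RingNew
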